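/-
S17, part W (weak Mordell-Weil for `m = 2`), architect helper67.
SKELETON: exact statements of all nodes.  Never import this file in a landed proof.
-/
import Mathlib
import Fermat.Agent.GAL.KLStatement
import Fermat.Agent.GAL.E.Defs
import Fermat.Agent.S27.RiemannI
import Fermat.Agent.S24.Export.Ramification
import Fermat.Prelude.Def_FLTPrelim_Ramification
import Fermat.Agent.S17.W.Defs

set_option autoImplicit false

noncomputable section

namespace Fermat.Agent.S17.W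

open ModularCurve AlgebraicCurve Fermat.Agent.S24 Fermat.Agent.GAL Fermat.Agent.GAL.E
open IsDedekindDomain NumberField
open scoped WithZero

/-! ### W0 Abstract.lean -/

theorem finiteIndex_range_two_nsmul {Γ J : Type*} [Group Γ] [AddCommGroup J]
    [DistribMulAction Γ J] (hdiv : ∀ x : J, ∃ y : J, 2 • y = x)
    (hfin : {t : J | 2 • t = 0}.Finite) (U : Subgroup Γ) (hUfin : U.FiniteIndex)
    (hU : ∀ y : J, (∀ σ : Γ, σ • (2 • y) = 2 • y) → ∀ τ ∈ U, τ • y = y) :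
    (nsmulAddMonoidHom (α := ↥(FixedPoints.addSubgroup Γ J)) 2).range.FiniteIndex := sorry

/-! ### W1 PlaceInf.lean -/

/-- the cusp `∞` -/
def placeInf (N : ℕ) [NeZero N] : Place Kbar (FN N) := sorry

theorem ord_placeInf (N : ℕ) [NeZero N] (f : FN N) :
    (placeInf N).ord f = (f : LaurentSeries Kbar).order := sorry

theorem gal_smul_placeInf (N : ℕ) [NeZero N] (σ : GQ) : gal N σ • placeInf N = placeInf N := sorry

/-! ### W2 Level.lean -/

theorem exists_level_place (N : ℕ) [NeZero N] (v : Place Kbar (FN N)) :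
    ∃ L : IntermediateField ℚ Kbar, FiniteDimensional ℚ L ∧
      ∀ σ : GQ, (∀ x ∈ L, σ x = x) → gal N σ • v = v := sorry

theorem exists_level_divisor (N : ℕ) [NeZero N] (D : Divisor Kbar (FN N)) :
    ∃ L : IntermediateField ℚ Kbar, FiniteDimensional ℚ L ∧
      ∀ σ : GQ, (∀ x ∈ L, σ x = x) → gal N σ • D = D := sorry

theorem exists_level_class (N : ℕ) [NeZero N] (y : JZero N) :
    ∃ L : IntermediateField ℚ Kbar, FiniteDimensional ℚ L ∧
      ∀ σ : GQ, (∀ x ∈ L, σ x = x) → σ • y = y := sorry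

/-! ### W3 FixedDivisor.lean -/

theorem exists_fixed_divisor (N : ℕ) [NeZero N] (x : JZero N) :
    ∃ D : Divisor.degZero (K := Kbar) (F := FN N), Pic0.mk D = x ∧
      ∀ σ : GQ, σ • x = x → gal N σ • (D : Divisor Kbar (FN N)) = D := sorry

/-! ### W4 Inertia.lean -/

theorem galF_div_eq_pow (N n : ℕ) (hn : n ≠ 0) (A : ValuationSubring Kbar) (ℓ : ℕ) (hℓ : ℓ.Prime)
    (hA : A.LiesOverPrime ℓ) (hKL : KL N A n) (σ : GQ) (hσ : σ ∈ A.inertiaSubgroupIn ℚ)
    (g : FN N) (hg : g ≠ 0) (hk : IsKum N n (galF N σ g / g)) :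
    ∃ w : FN N, galF N σ g / g = w ^ n := sorry

theorem inertia_smul_half (N : ℕ) [NeZero N] (hKL : KLStatement) (ℓ : ℕ) (hℓ : ℓ.Prime)
    (hℓN : ¬ ℓ ∣ 2 * N) (A : ValuationSubring Kbar) (hA : A.LiesOverPrime ℓ) (σ : GQ)
    (hσ : σ ∈ A.inertiaSubgroupIn ℚ) (y : JZero N) (hy : σ • (2 • y) = 2 • y) :
    σ • y = y := sorry

/-! ### W5 Kummer2.lean -/

theorem exists_sqrt_of_character (K : IntermediateField ℚ Kbar) [FiniteDimensional ℚ K]
    (κ : GQ → ZMod 2)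
    (hadd : ∀ σ τ : GQ, σ ∈ K.fixingSubgroup → τ ∈ K.fixingSubgroup → κ (σ * τ) = κ σ + κ τ)
    (F : IntermediateField ℚ Kbar) [FiniteDimensional ℚ F]
    (hF : ∀ σ ∈ F.fixingSubgroup, σ ∈ K.fixingSubgroup → κ σ = 0) :
    ∃ α : Kbar, α ≠ 0 ∧ α ^ 2 ∈ K ∧ ∀ σ ∈ K.fixingSubgroup, σ α = (-1) ^ (κ σ).val * α := sorry

/-! ### W6 EvenVal.lean -/

theorem valuation_sq_of_unramified (K : IntermediateField ℚ Kbar) [NumberField K] (a : K)
    (ha : a ≠ 0) (α : Kbar) (hα : α ^ 2 = (a : Kbar)) (v : HeightOneSpectrum (𝓞 K))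
    (h : ∀ ℓ : ℕ, ℓ.Prime → (ℓ : 𝓞 K) ∈ v.asIdeal → ∀ A : ValuationSubring Kbar,
      A.LiesOverPrime ℓ → ∀ σ ∈ A.inertiaSubgroupIn ℚ, σ ∈ K.fixingSubgroup → σ α = α) :
    ∃ γ : ℤᵐ⁰, v.valuation K a = γ ^ 2 := sorry

/-! ### W7 Selmer2.lean -/

theorem exists_finite_reps (K : Type) [Field K] [NumberField K]
    (S : Set (HeightOneSpectrum (𝓞 K))) (hS : S.Finite) :
    ∃ R : Finset K, ∀ a : K, a ≠ 0 → (∀ v ∉ S, ∃ γ : ℤᵐ⁰, v.valuation K a = γ ^ 2) →
      ∃ r ∈ R, ∃ b : K, a = r * b ^ 2 := sorry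

theorem finite_primes_over (K : Type) [Field K] [NumberField K] (T : Finset ℕ) :
    {v : HeightOneSpectrum (𝓞 K) | ∃ ℓ ∈ T, ℓ.Prime ∧ (ℓ : 𝓞 K) ∈ v.asIdeal}.Finite := sorry

/-! ### W8 QuadFinite.lean -/

theorem exists_level_of_characters (K : IntermediateField ℚ Kbar) [FiniteDimensional ℚ K]
    (T : Finset ℕ) :
    ∃ L : IntermediateField ℚ Kbar, FiniteDimensional ℚ L ∧ K ≤ L ∧
      ∀ κ : GQ → ZMod 2,
        (∀ σ τ : GQ, σ ∈ K.fixingSubgroup → τ ∈ K.fixingSubgroup → κ (σ * τ) = κ σ + κ τ) →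
        (∃ F : IntermediateField ℚ Kbar, FiniteDimensional ℚ F ∧
          ∀ σ ∈ F.fixingSubgroup, σ ∈ K.fixingSubgroup → κ σ = 0) →
        (∀ ℓ : ℕ, ℓ.Prime → ℓ ∉ T → ∀ A : ValuationSubring Kbar, A.LiesOverPrime ℓ →
          ∀ σ ∈ A.inertiaSubgroupIn ℚ, σ ∈ K.fixingSubgroup → κ σ = 0) →
        ∀ τ ∈ L.fixingSubgroup, κ τ = 0 := sorry

/-! ### WD Divisible.lean (on top of S27) -/

theorem divisible_JZero (N : ℕ) [NeZero N] (n : ℕ) (hn : 0 < n) (x : JZero N) :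
    ∃ y : JZero N, n • y = x := sorry

theorem finite_torsion_JZero (N : ℕ) [NeZero N] (n : ℕ) (hn : 0 < n) :
    Finite (Pic0.torsion Kbar (FN N) n) := sorry

/-! ### W9 Main.lean -/

theorem exists_uniform_level (N : ℕ) [NeZero N] (hKL : KLStatement)
    (hfin : Finite (Pic0.torsion Kbar (FN N) 2))
    (K0 : IntermediateField ℚ Kbar) [FiniteDimensional ℚ K0] :
    ∃ L : IntermediateField ℚ Kbar, FiniteDimensional ℚ L ∧
      ∀ y : JZero N, (∀ σ ∈ K0.fixingSubgroup, σ • (2 • y) = 2 • y) →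
        ∀ τ ∈ L.fixingSubgroup, τ • y = y := sorry

theorem weak_mordell_weil_of (N : ℕ) [NeZero N] (hKL : KLStatement)
    (hdiv : ∀ x : JZero N, ∃ y : JZero N, 2 • y = x)
    (hfin : Finite (Pic0.torsion Kbar (FN N) 2))
    (K0 : IntermediateField ℚ Kbar) [FiniteDimensional ℚ K0] :
    (nsmulAddMonoidHom (α := ↥(JK N K0)) 2).range.FiniteIndex := sorry

/-- the deliverable of part W -/
theorem weak_mordell_weil (N : ℕ) [NeZero N] (hKL : KLStatement)
    (K0 : IntermediateField ℚ Kbar) [FiniteDimensional ℚ K0] :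
    (nsmulAddMonoidHom (α := ↥(JK N K0)) 2).range.FiniteIndex :=
  weak_mordell_weil_of N hKL (divisible_JZero N 2 two_pos) (finite_torsion_JZero N 2 two_pos) K0

end Fermat.Agent.S17.W

end
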